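/-
S44 (level lowering at `p`), cell [G] = [TOR], sub-cell SFC-p (helper13).  Prefix `s44s_`.
Namespace `Fermat.Agent.S44`.  File 1: NEWTON LIFTING OF THE `p`-TH ROOT SECTION IN THE DEEP RANGE.

Twin of `SS/SFC/Newton.lean` (`sfn_newton`) for the exponent `m = p` which is NOT a unit:
`(p : A0) = π ^ ((p - 1) * e) * v` with `v` a unit (in the application `π` is a uniformiser of a
discrete valuation ring containing `ζ_p`, `λ = ζ_p - 1 = π ^ e · unit`, `p = λ ^ (p - 1) · unit`).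
The congruences for `f` are taken modulo `π ^ (p e + n)` (= `λ ^ p π ^ n`), those for the root
sections `h` modulo `π ^ (e + n)` (= `λ π ^ n`):

  `(1 + π ^ (e + n) t) ^ p = 1 + v π ^ (p e + n) t  mod  π ^ (p e + n + 1)`,

so the Newton step survives with `t := - b / v`.

* `s44s_one_add_pow` : `(1 + x) ^ p = 1 + x ^ p + p x (1 + x s)`;
* `s44s_S`           : approximate `p`-th root sections of level `n`;
* `s44s_newton`      : the lifting theorem (same conclusion as `sfn_newton`).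
-/
import Mathlib
import Fermat.Agent.SS.SFC.Newton

set_option autoImplicit false

namespace Fermat.Agent.S44

open Fermat.Agent.JT3 Fermat.Agent.SS

section Binomial

/-- `(1 + x) ^ p = 1 + x ^ p + p x (1 + x s)` with `s` in any subring containing `x`. -/
theorem s44s_one_add_pow {R : Type*} [CommRing R] (S : Subring R) {p : ℕ} (hp : p.Prime) {x : R}
    (hx : x ∈ S) : ∃ s ∈ S, (1 + x) ^ p = 1 + x ^ p + (p : R) * x * (1 + x * s) := by
  classical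
  have h := add_pow_prime_eq hp x (1 : R)
  have hp2 : 2 ≤ p := hp.two_le
  -- split the sum at `k = 1`
  have hIoo : Finset.Ioo 0 p = insert 1 (Finset.Ioo 1 p) := by
    ext k
    simp only [Finset.mem_Ioo, Finset.mem_insert]
    omega
  have hnot : (1 : ℕ) ∉ Finset.Ioo 1 p := by simp
  refine ⟨∑ k ∈ Finset.Ioo 1 p, x ^ (k - 2) * ((p.choose k / p : ℕ) : R), ?_, ?_⟩
  · refine S.sum_mem fun k _ => S.mul_mem (S.pow_mem hx _) (natCast_mem S _)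
  · rw [add_comm 1 x, h, hIoo, Finset.sum_insert hnot]
    have h1 : p.choose 1 / p = 1 := by
      rw [Nat.choose_one_right, Nat.div_self hp.pos]
    have h2 : ∑ k ∈ Finset.Ioo 1 p, x ^ (k - 1) * (1 : R) ^ (p - k - 1) * ((p.choose k / p : ℕ) : R)
        = x * ∑ k ∈ Finset.Ioo 1 p, x ^ (k - 2) * ((p.choose k / p : ℕ) : R) := by
      rw [Finset.mul_sum]
      refine Finset.sum_congr rfl fun k hk => ?_
      have hk2 : 2 ≤ k := by
        have := (Finset.mem_Ioo.1 hk).1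
        omega
      have : k - 1 = (k - 2) + 1 := by omega
      rw [this, pow_succ, one_pow]
      ring
    rw [h2, h1]
    simp only [one_pow, Nat.sub_self, pow_zero, Nat.cast_one, mul_one]
    ring

end Binomial

section Newton

variable {A0 F0 : Type*} [CommRing A0] [Field F0] [Algebra A0 F0]

variable (π : A0) (p e : ℕ) (B : Subalgebra A0 F0) (O : Subring F0) (f : F0)

local notation "ϖ" => algebraMap A0 F0 π

/-- approximate `p`-th root sections of level `n` in the deep range -/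
def s44s_S (n : ℕ) (h : F0) : Prop :=
  h ∈ fcn_I p B f ∧ (∃ y ∈ O, h - 1 = ϖ ^ (e + 1) * y) ∧
    ∃ b ∈ B, h ^ p * f = 1 + ϖ ^ (p * e + n) * b

variable {π p e B O f}

/-- the hypothesis on `f` in the deep range implies the shallow one -/
theorem s44s_hf_shallow (hO : sfn_Jac π O) (hf : ∃ y ∈ O, f - 1 = ϖ ^ (p * e + 1) * y) :
    ∃ y ∈ O, f - 1 = ϖ * y := by
  obtain ⟨y, hy, h⟩ := hf
  exact ⟨ϖ ^ (p * e) * y, O.mul_mem (O.pow_mem hO.pi_mem _) hy, by rw [h, pow_succ]; ring⟩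

theorem s44s_mem_of_cong (hO : sfn_Jac π O) {h : F0} (hy : ∃ y ∈ O, h - 1 = ϖ ^ (e + 1) * y) :
    h ∈ O := by
  obtain ⟨y, hyO, hhy⟩ := hy
  have : h = 1 + ϖ ^ (e + 1) * y := by rw [← hhy]; ring
  rw [this]
  exact O.add_mem O.one_mem (O.mul_mem (O.pow_mem hO.pi_mem _) hyO)

/-- level one -/
theorem s44s_S_one (hp : p.Prime) (hO : sfn_Jac π O) {v : A0}
    (hpv : (p : A0) = π ^ ((p - 1) * e) * v)
    (hBO : ∀ z ∈ B, z ∈ O)
    (hsat : ∀ y ∈ O, ϖ * y ∈ B → y ∈ B) (hf : ∃ y ∈ O, f - 1 = ϖ ^ (p * e + 1) * y) {h : F0}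
    (hh : h ∈ fcn_I p B f) (hy : ∃ y ∈ O, h - 1 = ϖ ^ (e + 1) * y) : s44s_S π p e B O f 1 h := by
  refine ⟨hh, hy, ?_⟩
  have hhO : h ∈ O := s44s_mem_of_cong hO hy
  obtain ⟨y, hyO, hhy⟩ := hy
  obtain ⟨yf, hyf, hfy⟩ := hf
  have hϖO : ϖ ∈ O := hO.pi_mem
  have hfO : f ∈ O := hO.f_mem (s44s_hf_shallow hO ⟨yf, hyf, hfy⟩)
  have hvO : algebraMap A0 F0 v ∈ O := hBO _ (B.algebraMap_mem v)
  set x := ϖ ^ (e + 1) * y with hx
  have hxO : x ∈ O := O.mul_mem (O.pow_mem hϖO _) hyO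
  obtain ⟨s, hs, hexp⟩ := s44s_one_add_pow O hp hxO
  have hp1 : 1 ≤ p := hp.one_le
  have hpF : (p : F0) = ϖ ^ ((p - 1) * e) * algebraMap A0 F0 v := by
    have := congrArg (algebraMap A0 F0) hpv
    rwa [map_natCast, map_mul, map_pow] at this
  have hh' : h = 1 + x := by rw [← hhy]; ring
  -- `h ^ p - 1 = ϖ ^ (p e + 1) c`
  set c := ϖ ^ (p - 1) * y ^ p + algebraMap A0 F0 v * y * (1 + x * s) with hc
  have hcO : c ∈ O :=
    O.add_mem (O.mul_mem (O.pow_mem hϖO _) (O.pow_mem hyO _))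
      (O.mul_mem (O.mul_mem hvO hyO) (O.add_mem O.one_mem (O.mul_mem hxO hs)))
  have hexp1 : p * (e + 1) = (p * e + 1) + (p - 1) := by
    have : p * (e + 1) = p * e + p := by ring
    omega
  have hexp2 : (p - 1) * e + (e + 1) = p * e + 1 := by
    obtain ⟨q, rfl⟩ : ∃ q, p = q + 1 := ⟨p - 1, by omega⟩
    simp only [Nat.add_sub_cancel]
    ring
  have hpow : h ^ p - 1 = ϖ ^ (p * e + 1) * c := by
    rw [hh', hexp, hpF, hc, hx, mul_pow, ← pow_mul, mul_comm (e + 1) p, hexp1, pow_add,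
      ← hexp2, pow_add]
    ring
  set b := c * f + yf with hb
  have hbO : b ∈ O := O.add_mem (O.mul_mem hcO hfO) hyf
  have hkey : h ^ p * f - 1 = ϖ ^ (p * e + 1) * b := by
    have : h ^ p * f - 1 = (h ^ p - 1) * f + (f - 1) := by ring
    rw [this, hpow, hfy, hb]; ring
  have hbB : b ∈ B := by
    apply hO.sat_pow hsat (p * e + 1) b hbO
    rw [← hkey]
    exact B.sub_mem hh B.one_mem
  exact ⟨b, hbB, by rw [← hkey]; ring⟩

/-- the Newton step -/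
theorem s44s_S_succ (hp : p.Prime) (hO : sfn_Jac π O) {v μ : A0}
    (hpv : (p : A0) = π ^ ((p - 1) * e) * v) (hvμ : v * μ = 1)
    (hBO : ∀ z ∈ B, z ∈ O) {k : ℕ} {h : F0} (hS : s44s_S π p e B O f (k + 1) h) :
    ∃ h' : F0, s44s_S π p e B O f (k + 2) h' := by
  obtain ⟨hh, ⟨y, hyO, hhy⟩, b, hbB, hb⟩ := hS
  have hϖB : ϖ ∈ B := B.algebraMap_mem π
  have hϖO : ϖ ∈ O := hO.pi_mem
  have hhO : h ∈ O := s44s_mem_of_cong hO ⟨y, hyO, hhy⟩
  have hp2 : 2 ≤ p := hp.two_le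
  have hpF : (p : F0) = ϖ ^ ((p - 1) * e) * algebraMap A0 F0 v := by
    have := congrArg (algebraMap A0 F0) hpv
    rwa [map_natCast, map_mul, map_pow] at this
  have hvμF : algebraMap A0 F0 v * algebraMap A0 F0 μ = 1 := by
    rw [← map_mul, hvμ, map_one]
  have hμB : algebraMap A0 F0 μ ∈ B := B.algebraMap_mem μ
  -- the correction
  set t := -(b * algebraMap A0 F0 μ) with ht
  have htB : t ∈ B := B.neg_mem (B.mul_mem hbB hμB)
  set x := ϖ ^ (e + k + 1) * t with hx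
  have hxB : x ∈ B := B.mul_mem (B.pow_mem hϖB _) htB
  obtain ⟨s, hs, hexp⟩ := s44s_one_add_pow B.toSubring hp (show x ∈ B.toSubring from hxB)
  have hsB : s ∈ B := hs
  set z := ϖ ^ (p * e + (k + 1)) * b with hz
  have hzB : z ∈ B := B.mul_mem (B.pow_mem hϖB _) hbB
  have hexp2 : (p - 1) * e + (e + k + 1) = p * e + (k + 1) := by
    obtain ⟨q, rfl⟩ : ∃ q, p = q + 1 := ⟨p - 1, by omega⟩
    simp only [Nat.add_sub_cancel]
    ring
  have hpx : (p : F0) * x = -z := by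
    rw [hpF, hx, hz, ht, ← hexp2, pow_add]
    linear_combination (-(ϖ ^ ((p - 1) * e) * ϖ ^ (e + k + 1) * b)) * hvμF
  refine ⟨(1 + x) * h, fcn_I_smul (B.add_mem B.one_mem hxB) hh, ?_, ?_⟩
  · refine ⟨y + ϖ ^ k * t * h, ?_, ?_⟩
    · exact O.add_mem hyO (O.mul_mem (O.mul_mem (O.pow_mem hϖO k) (hBO _ htB)) hhO)
    · have : (1 + x) * h - 1 = (h - 1) + x * h := by ring
      rw [this, hhy, hx]
      have : e + k + 1 = (e + 1) + k := by ring
      rw [this, pow_add]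
      ring
  · -- the new error term
    have he1 : p * (e + k + 1) = (p * e + (k + 2)) + ((p - 1) * k + (p - 2)) := by
      obtain ⟨q, rfl⟩ : ∃ q, p = q + 2 := ⟨p - 2, by omega⟩
      simp only [Nat.add_sub_cancel, show q + 2 - 1 = q + 1 by omega]
      ring
    have he2 : (p * e + (k + 1)) + (e + k + 1) = (p * e + (k + 2)) + (e + k) := by ring
    have he3 : (p * e + (k + 1)) + (p * e + (k + 1)) = (p * e + (k + 2)) + (p * e + k) := by ring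
    have hxp : x ^ p = ϖ ^ (p * e + (k + 2)) * (ϖ ^ ((p - 1) * k + (p - 2)) * t ^ p) := by
      rw [hx, mul_pow, ← pow_mul, mul_comm (e + k + 1) p, he1, pow_add]
      ring
    have hzx : z * x = ϖ ^ (p * e + (k + 2)) * (ϖ ^ (e + k) * b * t) := by
      rw [hz, hx]
      have : ϖ ^ (p * e + (k + 1)) * b * (ϖ ^ (e + k + 1) * t)
          = ϖ ^ ((p * e + (k + 1)) + (e + k + 1)) * (b * t) := by rw [pow_add]; ring
      rw [this, he2, pow_add]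
      ring
    have hzz : z * z = ϖ ^ (p * e + (k + 2)) * (ϖ ^ (p * e + k) * b * b) := by
      rw [hz]
      have : ϖ ^ (p * e + (k + 1)) * b * (ϖ ^ (p * e + (k + 1)) * b)
          = ϖ ^ ((p * e + (k + 1)) + (p * e + (k + 1))) * (b * b) := by rw [pow_add]; ring
      rw [this, he3, pow_add]
      ring
    set R1 := ϖ ^ ((p - 1) * k + (p - 2)) * t ^ p with hR1
    set R2 := ϖ ^ (e + k) * b * t with hR2
    set R3 := ϖ ^ (p * e + k) * b * b with hR3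
    have hR1B : R1 ∈ B := B.mul_mem (B.pow_mem hϖB _) (B.pow_mem htB _)
    have hR2B : R2 ∈ B := B.mul_mem (B.mul_mem (B.pow_mem hϖB _) hbB) htB
    have hR3B : R3 ∈ B := B.mul_mem (B.mul_mem (B.pow_mem hϖB _) hbB) hbB
    refine ⟨(R1 - R2 * s) * (1 + z) - R3, ?_, ?_⟩
    · exact B.sub_mem (B.mul_mem (B.sub_mem hR1B (B.mul_mem hR2B hsB))
        (B.add_mem B.one_mem hzB)) hR3B
    · have h1 : ((1 + x) * h) ^ p * f = (1 + x) ^ p * (h ^ p * f) := by rw [mul_pow]; ring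
      have hb' : h ^ p * f = 1 + z := by rw [hb]
      rw [h1, hb', hexp]
      have h2 : (p : F0) * x * (1 + x * s) = -z - z * x * s := by
        rw [hpx]; ring
      rw [h2]
      have h3 : (1 + x ^ p + (-z - z * x * s)) * (1 + z)
          = 1 + (x ^ p - z * x * s) * (1 + z) - z * z := by ring
      rw [h3, hxp, hzx, hzz]
      ring

theorem s44s_S_exists (hp : p.Prime) (hO : sfn_Jac π O) {v μ : A0}
    (hpv : (p : A0) = π ^ ((p - 1) * e) * v) (hvμ : v * μ = 1)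
    (hBO : ∀ z ∈ B, z ∈ O)
    (hsat : ∀ y ∈ O, ϖ * y ∈ B → y ∈ B) (hf : ∃ y ∈ O, f - 1 = ϖ ^ (p * e + 1) * y)
    (hs : ∃ h : F0, h ^ p * f ∈ B ∧ ∃ y ∈ O, h - 1 = ϖ ^ (e + 1) * y) (k : ℕ) :
    ∃ h : F0, s44s_S π p e B O f (k + 1) h := by
  induction k with
  | zero =>
    obtain ⟨h, hh, hy⟩ := hs
    exact ⟨h, s44s_S_one hp hO hpv hBO hsat hf hh hy⟩
  | succ k ih =>
    obtain ⟨h, hS⟩ := ih
    exact s44s_S_succ hp hO hpv hvμ hBO hS

/-- two approximate roots of level `k + 1` (possibly on different charts) agree modulo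
`π ^ (e + k + 1)`. -/
theorem s44s_compare (hp : p.Prime) (hO : sfn_Jac π O) {v μ : A0}
    (hpv : (p : A0) = π ^ ((p - 1) * e) * v) (hvμ : v * μ = 1)
    {B' : Subalgebra A0 F0} (hBO : ∀ z ∈ B, z ∈ O)
    (hBO' : ∀ z ∈ B', z ∈ O) (hf : ∃ y ∈ O, f - 1 = ϖ ^ (p * e + 1) * y)
    {k : ℕ} {h1 h2 : F0} (hS1 : s44s_S π p e B O f (k + 1) h1)
    (hS2 : s44s_S π p e B' O f (k + 1) h2) : ∃ ν ∈ O, h1 - h2 = ϖ ^ (e + k + 1) * ν := by
  obtain ⟨-, ⟨y1, hy1, hh1⟩, b1, hb1B, hb1⟩ := hS1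
  obtain ⟨-, ⟨y2, hy2, hh2⟩, b2, hb2B, hb2⟩ := hS2
  have hϖO : ϖ ∈ O := hO.pi_mem
  have hϖ0 : ϖ ≠ 0 := hO.pi_ne_zero
  have hp2 : 2 ≤ p := hp.two_le
  obtain ⟨yf, hyf, hfy⟩ := s44s_hf_shallow hO hf
  have hf' : f = 1 + ϖ * yf := by rw [← hfy]; ring
  have hf0 : f ≠ 0 := by rw [hf']; exact hO.one_add_ne_zero hyf
  have hpF : (p : F0) = ϖ ^ ((p - 1) * e) * algebraMap A0 F0 v := by
    have := congrArg (algebraMap A0 F0) hpv
    rwa [map_natCast, map_mul, map_pow] at this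
  have hvμF : algebraMap A0 F0 v * algebraMap A0 F0 μ = 1 := by
    rw [← map_mul, hvμ, map_one]
  have hvO : algebraMap A0 F0 v ∈ O := hBO _ (B.algebraMap_mem v)
  have hμO : algebraMap A0 F0 μ ∈ O := hBO _ (B.algebraMap_mem μ)
  have hv0 : algebraMap A0 F0 v ≠ 0 := by
    intro h0
    rw [h0, zero_mul] at hvμF
    exact zero_ne_one hvμF
  have hh1' : h1 = 1 + ϖ * (ϖ ^ e * y1) := by
    have : h1 = 1 + ϖ ^ (e + 1) * y1 := by rw [← hh1]; ring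
    rw [this, pow_succ]; ring
  have hh2' : h2 = 1 + ϖ * (ϖ ^ e * y2) := by
    have : h2 = 1 + ϖ ^ (e + 1) * y2 := by rw [← hh2]; ring
    rw [this, pow_succ]; ring
  have hy1' : ϖ ^ e * y1 ∈ O := O.mul_mem (O.pow_mem hϖO e) hy1
  have hy2' : ϖ ^ e * y2 ∈ O := O.mul_mem (O.pow_mem hϖO e) hy2
  have hh1O : h1 ∈ O := by rw [hh1']; exact O.add_mem O.one_mem (O.mul_mem hϖO hy1')
  have hh2O : h2 ∈ O := by rw [hh2']; exact O.add_mem O.one_mem (O.mul_mem hϖO hy2')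
  have hh20 : h2 ≠ 0 := by rw [hh2']; exact hO.one_add_ne_zero hy2'
  have hh2inv : h2⁻¹ ∈ O := by rw [hh2']; exact hO.inv_mem hy2'
  have hb1O := hBO _ hb1B
  have hb2O := hBO' _ hb2B
  -- the denominator D
  set D := 1 + ϖ ^ (p * e + (k + 1)) * b2 with hD
  have hD' : D = 1 + ϖ * (ϖ ^ (p * e + k) * b2) := by
    rw [hD]
    have : p * e + (k + 1) = (p * e + k) + 1 := by ring
    rw [this, pow_succ]; ring
  have hDy : ϖ ^ (p * e + k) * b2 ∈ O := O.mul_mem (O.pow_mem hϖO _) hb2O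
  have hD0 : D ≠ 0 := by rw [hD']; exact hO.one_add_ne_zero hDy
  have hDinv : D⁻¹ ∈ O := by rw [hD']; exact hO.inv_mem hDy
  -- u := h1 / h2 = 1 + x, x = ϖ ^ (e + 1) w
  set w := (y1 - y2) * h2⁻¹ with hw
  have hwO : w ∈ O := O.mul_mem (O.sub_mem hy1 hy2) hh2inv
  set x := ϖ ^ (e + 1) * w with hx
  have hxO : x ∈ O := O.mul_mem (O.pow_mem hϖO _) hwO
  have hu : h1 * h2⁻¹ = 1 + x := by
    have : h1 * h2⁻¹ - 1 = (h1 - h2) * h2⁻¹ := by
      rw [sub_mul, mul_inv_cancel₀ hh20]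
    have e1 : h1 - h2 = ϖ ^ (e + 1) * (y1 - y2) := by
      have : h1 - h2 = (h1 - 1) - (h2 - 1) := by ring
      rw [this, hh1, hh2]; ring
    rw [e1] at this
    rw [hx, hw]
    linear_combination this
  have hum : (1 + x) ^ p - 1 = ϖ ^ (p * e + (k + 1)) * ((b1 - b2) * D⁻¹) := by
    have h2m0 : h2 ^ p ≠ 0 := pow_ne_zero _ hh20
    have e1 : (1 + x) ^ p = (h1 ^ p * f) * (h2 ^ p * f)⁻¹ := by
      rw [← hu, mul_pow, inv_pow, mul_inv]
      field_simp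
    rw [e1, hb1, hb2]
    have e2 : 1 + ϖ ^ (p * e + (k + 1)) * b1 = D + ϖ ^ (p * e + (k + 1)) * (b1 - b2) := by
      rw [hD]; ring
    rw [e2, add_mul, mul_inv_cancel₀ hD0]; ring
  obtain ⟨s, hs, hexp⟩ := s44s_one_add_pow O hp hxO
  -- `(1 + x) ^ p - 1 = ϖ ^ (p e + 1) * w * G`, `G` a unit of `O`
  set G1 := ϖ ^ e * w * s + algebraMap A0 F0 μ * (ϖ ^ (p - 2) * w ^ (p - 1)) with hG1
  have hG1O : G1 ∈ O :=
    O.add_mem (O.mul_mem (O.mul_mem (O.pow_mem hϖO _) hwO) hs)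
      (O.mul_mem hμO (O.mul_mem (O.pow_mem hϖO _) (O.pow_mem hwO _)))
  set G := algebraMap A0 F0 v * (1 + ϖ * G1) with hG
  have hG0 : G ≠ 0 := mul_ne_zero hv0 (hO.one_add_ne_zero hG1O)
  have hGinv : G⁻¹ ∈ O := by
    rw [hG, mul_inv]
    have : (algebraMap A0 F0 v)⁻¹ = algebraMap A0 F0 μ := inv_eq_of_mul_eq_one_right hvμF
    rw [this]
    exact O.mul_mem hμO (hO.inv_mem hG1O)
  have hexp1 : p * (e + 1) = (p * e + 1) + (p - 2) + 1 := by
    have : p * (e + 1) = p * e + p := by ring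
    omega
  have hexp2 : (p - 1) * e + (e + 1) = p * e + 1 := by
    obtain ⟨q, rfl⟩ : ∃ q, p = q + 1 := ⟨p - 1, by omega⟩
    simp only [Nat.add_sub_cancel]
    ring
  have hwp : w ^ p = w * w ^ (p - 1) := by
    rw [← pow_succ']
    congr 1
    omega
  have hfac : (1 + x) ^ p - 1 = ϖ ^ (p * e + 1) * w * G := by
    rw [hexp, hpF, hG, hG1, hx, mul_pow, ← pow_mul, mul_comm (e + 1) p, hexp1, hwp, ← hexp2]
    simp only [pow_add, pow_one]
    linear_combination (-(ϖ ^ ((p - 1) * e) * ϖ ^ e * ϖ * ϖ ^ (p - 2) * ϖ * w * w ^ (p - 1))) * hvμF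
  -- hence `w = ϖ ^ k * ...`
  have hw' : w = ϖ ^ k * ((b1 - b2) * D⁻¹ * G⁻¹) := by
    have h1 : ϖ ^ (p * e + 1) * w * G = ϖ ^ (p * e + 1) * (ϖ ^ k * ((b1 - b2) * D⁻¹)) := by
      rw [← hfac, hum]
      have : p * e + (k + 1) = (p * e + 1) + k := by ring
      rw [this, pow_add]; ring
    have h2 : w * G = ϖ ^ k * ((b1 - b2) * D⁻¹) := by
      apply mul_left_cancel₀ (pow_ne_zero (p * e + 1) hϖ0)
      rw [← h1]; ring
    calc w = w * G * G⁻¹ := by rw [mul_assoc, mul_inv_cancel₀ hG0, mul_one]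
      _ = ϖ ^ k * ((b1 - b2) * D⁻¹ * G⁻¹) := by rw [h2]; ring
  refine ⟨(b1 - b2) * D⁻¹ * G⁻¹ * h2, ?_, ?_⟩
  · exact O.mul_mem (O.mul_mem (O.mul_mem (O.sub_mem hb1O hb2O) hDinv) hGinv) hh2O
  · have e1 : h1 - h2 = x * h2 := by
      have : h1 = (h1 * h2⁻¹) * h2 := by rw [mul_assoc, inv_mul_cancel₀ hh20, mul_one]
      rw [hu] at this
      linear_combination this
    rw [e1, hx]
    have : e + k + 1 = (e + 1) + k := by ring
    rw [this, pow_add]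
    nth_rewrite 1 [hw']
    ring

/-- **Newton lifting in the deep range**: `sfn_newton` for `m = p`,
`p = π ^ ((p - 1) e) · unit`. -/
theorem s44s_newton (π : A0) (p e : ℕ) (hp : p.Prime) (v μ : A0)
    (hpv : (p : A0) = π ^ ((p - 1) * e) * v) (hvμ : v * μ = 1)
    (B1 B2 B12 : Subalgebra A0 F0)
    (h1 : B1 ≤ B12) (h2 : B2 ≤ B12) (O : Subring F0) (hBO : ∀ z ∈ B12, z ∈ O)
    (hjac : ∀ y ∈ O, (1 + algebraMap A0 F0 π * y)⁻¹ ∈ O)
    (hπ : (algebraMap A0 F0 π)⁻¹ ∉ O) (hrootO : ∀ z : F0, z ^ p ∈ O → z ∈ O)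
    (hroot1 : ∀ z : F0, z ^ p ∈ B1 → z ∈ B1) (hroot2 : ∀ z : F0, z ^ p ∈ B2 → z ∈ B2)
    (hroot12 : ∀ z : F0, z ^ p ∈ B12 → z ∈ B12)
    (hsat1 : ∀ y ∈ O, algebraMap A0 F0 π * y ∈ B1 → y ∈ B1)
    (hsat2 : ∀ y ∈ O, algebraMap A0 F0 π * y ∈ B2 → y ∈ B2)
    (hsat12 : ∀ y ∈ O, algebraMap A0 F0 π * y ∈ B12 → y ∈ B12)
    (f : F0) (hf : ∃ y ∈ O, f - 1 = algebraMap A0 F0 π ^ (p * e + 1) * y)
    (hs1 : ∃ h : F0, h ^ p * f ∈ B1 ∧ ∃ y ∈ O, h - 1 = algebraMap A0 F0 π ^ (e + 1) * y)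
    (hs2 : ∃ h : F0, h ^ p * f ∈ B2 ∧ ∃ y ∈ O, h - 1 = algebraMap A0 F0 π ^ (e + 1) * y)
    (hbound : ∃ c0 : ℕ, ∀ μ : F0, μ ^ p * f ∈ B12 → ∀ n : ℕ,
      (∃ a1 a2 : F0, a1 ^ p * f ∈ B1 ∧ a2 ^ p * f ∈ B2 ∧
        algebraMap A0 F0 π ^ n * μ = a1 + a2) →
      ∃ a1 a2 : F0, a1 ^ p * f ∈ B1 ∧ a2 ^ p * f ∈ B2 ∧
        algebraMap A0 F0 π ^ c0 * μ = a1 + a2) :
    ∃ h : F0, h ≠ 0 ∧ h ^ p * f ∈ B1 ∧ h ^ p * f ∈ B2 := by
  have hO : sfn_Jac π O := ⟨hjac, hπ, hBO _ (B12.algebraMap_mem π)⟩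
  have hBO1 : ∀ z ∈ B1, z ∈ O := fun z hz => hBO z (h1 hz)
  have hBO2 : ∀ z ∈ B2, z ∈ O := fun z hz => hBO z (h2 hz)
  have hfs := s44s_hf_shallow hO hf
  obtain ⟨c0, hc0⟩ := hbound
  obtain ⟨g1, hS1⟩ := s44s_S_exists hp hO hpv hvμ hBO1 hsat1 hf hs1 c0
  obtain ⟨g2, hS2⟩ := s44s_S_exists hp hO hpv hvμ hBO2 hsat2 hf hs2 c0
  obtain ⟨ν, hνO, hν⟩ := s44s_compare hp hO hpv hvμ hBO1 hBO2 hf hS1 hS2
  have hg1I : g1 ∈ fcn_I p B1 f := hS1.1
  have hg2I : g2 ∈ fcn_I p B2 f := hS2.1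
  -- ν is a section over B12
  have hνI : ν ∈ fcn_I p B12 f := by
    apply hO.I_sat hsat12 hfs (e + c0 + 1) hνO
    rw [← hν]
    exact fcn_I_sub hroot12 (fcn_I_mono h1 hg1I) (fcn_I_mono h2 hg2I)
  obtain ⟨a1, a2, ha1, ha2, ha⟩ := hc0 ν hνI (e + c0 + 1) ⟨g1, -g2, hg1I, fcn_I_neg hg2I, by
    rw [← hν]; ring⟩
  have hϖ1 : algebraMap A0 F0 π ^ (e + 1) ∈ B1 := B1.pow_mem (B1.algebraMap_mem π) _
  have hϖ2 : algebraMap A0 F0 π ^ (e + 1) ∈ B2 := B2.pow_mem (B2.algebraMap_mem π) _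
  have hdiff : g1 - g2 = algebraMap A0 F0 π ^ (e + 1) * (a1 + a2) := by
    rw [hν, ← ha]
    have : e + c0 + 1 = (e + 1) + c0 := by ring
    rw [this, pow_add]; ring
  refine ⟨g1 - algebraMap A0 F0 π ^ (e + 1) * a1, ?_, ?_, ?_⟩
  · -- nonzero: ≡ 1 mod π
    obtain ⟨y, hyO, hy⟩ := hS1.2.1
    have ha1O : a1 ∈ O := hO.I_subset hBO1 hrootO hfs ha1
    have e1 : g1 - algebraMap A0 F0 π ^ (e + 1) * a1
        = 1 + algebraMap A0 F0 π * (algebraMap A0 F0 π ^ e * (y - a1)) := by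
      have : g1 = 1 + algebraMap A0 F0 π ^ (e + 1) * y := by rw [← hy]; ring
      rw [this, pow_succ]; ring
    rw [e1]
    exact hO.one_add_ne_zero (O.mul_mem (O.pow_mem hO.pi_mem e) (O.sub_mem hyO ha1O))
  · exact fcn_I_sub hroot1 hg1I (fcn_I_smul hϖ1 ha1)
  · have : g1 - algebraMap A0 F0 π ^ (e + 1) * a1 = g2 + algebraMap A0 F0 π ^ (e + 1) * a2 := by
      linear_combination hdiff
    rw [this]
    exact fcn_I_add hroot2 hg2I (fcn_I_smul hϖ2 ha2)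

end Newton

end Fermat.Agent.S44
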