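/-
S44 (level lowering at `p`), cell [G] = [TOR], sub-cell SFC-p (helper13).  Prefix `s44s_`.
Namespace `Fermat.Agent.S44`.  File 2: THE SEMISTABLE F-CORE FOR THE EXPONENT `p` (DEEP RANGE).

Twin of `SS/SFC/Main.lean` (`sfc_step1`, `sfc_main`) and `SS/SFC/Bridge.lean` (`sfc_loc_of_factor`,
`sfc_main_factor`) for the exponent `m = p`, `(p : A0) = π ^ ((p - 1) e) · v`, `v` a unit:
the congruences for `f` are modulo `π ^ (p e + 1)` (`= λ ^ p π`), those for the root sections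
modulo `π ^ (e + 1)` (`= λ π`).

* `s44s_step1`       : local-to-global for the root sections on one chart;
* `s44s_main`        : `f ≡ 1 mod π ^ (p e + 1) O`, local root sections `h ≡ b₁ mod π ^ (e + 1) O`
                       (`b₁ ∉ 𝔫`) at every closed point of the special fibre of both charts
                       ⟹ `f = c g ^ p`;
* `s44s_loc_of_factor`, `s44s_main_factor` : the same with the local hypotheses in the
  factorisation form `f = (1 + π ^ (p e + 1) y) r ^ p`, `y ∈ B_𝔫`, `r ≡ 1 mod π ^ (e + 1) O`.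
-/
import Mathlib
import Fermat.Agent.SS.SFC.Bridge
import Fermat.Agent.S44.SFCp.Newton

set_option autoImplicit false
set_option linter.unusedSectionVars false

namespace Fermat.Agent.S44

open Fermat.Agent.JT3 Fermat.Agent.SS

section Step1

variable {A0 : Type*} [CommRing A0] {F0 : Type*} [Field F0] [Algebra A0 F0]

/-- **STEP 1 on a chart, local-to-global, modulus `π ^ (e + 1)`.** -/
theorem s44s_step1 (B : Subalgebra A0 F0) (π : A0) (p e : ℕ) (hp0 : p ≠ 0) (f : F0)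
    (hroot : ∀ z : F0, z ^ p ∈ B → z ∈ B)
    (hloc : ∀ 𝔫 : Ideal B, 𝔫.IsMaximal → algebraMap A0 B π ∈ 𝔫 →
      ∃ (b1 : B) (h : F0), b1 ∉ 𝔫 ∧ h ^ p * f ∈ B ∧
        ∃ y ∈ sfc_O B.toSubring (algebraMap A0 F0 π),
          h - (b1 : F0) = algebraMap A0 F0 π ^ (e + 1) * y) :
    ∃ h : F0, h ^ p * f ∈ B ∧ ∃ y ∈ sfc_O B.toSubring (algebraMap A0 F0 π),
      h - 1 = algebraMap A0 F0 π ^ (e + 1) * y := by
  set ϖ := algebraMap A0 F0 π with hϖ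
  have hϖB : ϖ ∈ B := B.algebraMap_mem π
  let J : Ideal B :=
    { carrier := {b | ∃ h : F0, h ^ p * f ∈ B ∧
        ∃ y ∈ sfc_O B.toSubring ϖ, h - (b : F0) = ϖ ^ (e + 1) * y}
      zero_mem' := ⟨0, by rw [zero_pow hp0, zero_mul]; exact B.zero_mem, 0, zero_mem _, by
        simp only [ZeroMemClass.coe_zero, sub_zero, mul_zero]⟩
      add_mem' := by
        rintro b b' ⟨h, H, y, hy, hb⟩ ⟨h', H', y', hy', hb'⟩
        refine ⟨h + h', fcn_I_add hroot H H', y + y', add_mem hy hy', ?_⟩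
        have : h + h' - ((b + b' : B) : F0) = (h - (b : F0)) + (h' - (b' : F0)) := by
          push_cast; ring
        rw [this, hb, hb']; ring
      smul_mem' := by
        rintro c b ⟨h, H, y, hy, hb⟩
        refine ⟨(c : F0) * h, fcn_I_smul c.2 H, (c : F0) * y, mul_mem (sfc_le_O c.2) hy, ?_⟩
        have : (c : F0) * h - ((c • b : B) : F0) = (c : F0) * (h - (b : F0)) := by
          rw [smul_eq_mul]; push_cast; ring
        rw [this, hb]; ring }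
  have hJ : ∀ b : B, b ∈ J ↔ ∃ h : F0, h ^ p * f ∈ B ∧
      ∃ y ∈ sfc_O B.toSubring ϖ, h - (b : F0) = ϖ ^ (e + 1) * y := fun b => Iff.rfl
  have hJtop : J = ⊤ := by
    by_contra hne
    obtain ⟨𝔫, h𝔫max, hJ𝔫⟩ := Ideal.exists_le_maximal J hne
    by_cases hπ𝔫 : algebraMap A0 B π ∈ 𝔫
    · obtain ⟨b1, h, hb1, H, hb⟩ := hloc 𝔫 h𝔫max hπ𝔫
      exact hb1 (hJ𝔫 ((hJ b1).2 ⟨h, H, hb⟩))
    · apply hπ𝔫
      have hprime : 𝔫.IsPrime := h𝔫max.isPrime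
      apply hprime.mem_of_pow_mem (e + 1)
      refine hJ𝔫 ((hJ _).2 ⟨0, by rw [zero_pow hp0, zero_mul]; exact B.zero_mem, -1,
        neg_mem (one_mem _), ?_⟩)
      show (0 : F0) - ((algebraMap A0 B π ^ (e + 1) : B) : F0) = ϖ ^ (e + 1) * -1
      push_cast
      rw [hϖ]
      ring
  have h1J : (1 : B) ∈ J := by rw [hJtop]; exact Submodule.mem_top
  obtain ⟨h, H, y, hy, hb⟩ := (hJ 1).1 h1J
  exact ⟨h, H, y, hy, by simpa using hb⟩

end Step1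

section Main

universe v

variable {A0 : Type*} [CommRing A0] [IsDomain A0] [IsNoetherianRing A0]
  {F0 : Type v} [Field F0] [Algebra A0 F0]

/-- **Semistable F-core for the exponent `p`, deep range.** -/
theorem s44s_main (π : A0) {x : F0} (hx : x ≠ 0) (p e : ℕ) (hp : p.Prime) (v μ : A0)
    (hpv : (p : A0) = π ^ ((p - 1) * e) * v) (hvμ : v * μ = 1) (f : F0)
    [Algebra.IsAlgebraic (Algebra.adjoin A0 ({x} : Set F0)) F0]
    (hfin1 : Module.Finite (Algebra.adjoin A0 ({x} : Set F0))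
      (integralClosure (Algebra.adjoin A0 ({x} : Set F0)) F0))
    (hnu : (algebraMap A0 F0 π)⁻¹ ∉ fc_chart A0 ({x, x⁻¹} : Set F0))
    (hxS1 : x ∈ sfc_S (fc_chart A0 ({x} : Set F0)).toSubring (algebraMap A0 F0 π))
    (hxS2 : x⁻¹ ∈ sfc_S (fc_chart A0 ({x⁻¹} : Set F0)).toSubring (algebraMap A0 F0 π))
    (hloc1 : ∀ 𝔫 : Ideal (fc_chart A0 ({x} : Set F0)), 𝔫.IsMaximal →
      algebraMap A0 (fc_chart A0 ({x} : Set F0)) π ∈ 𝔫 →
      ∃ (b1 : fc_chart A0 ({x} : Set F0)) (h : F0), b1 ∉ 𝔫 ∧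
        h ^ p * f ∈ fc_chart A0 ({x} : Set F0) ∧
        ∃ y ∈ sfc_O (fc_chart A0 ({x} : Set F0)).toSubring (algebraMap A0 F0 π),
          h - (b1 : F0) = algebraMap A0 F0 π ^ (e + 1) * y)
    (hloc2 : ∀ 𝔫 : Ideal (fc_chart A0 ({x⁻¹} : Set F0)), 𝔫.IsMaximal →
      algebraMap A0 (fc_chart A0 ({x⁻¹} : Set F0)) π ∈ 𝔫 →
      ∃ (b1 : fc_chart A0 ({x⁻¹} : Set F0)) (h : F0), b1 ∉ 𝔫 ∧
        h ^ p * f ∈ fc_chart A0 ({x⁻¹} : Set F0) ∧
        ∃ y ∈ sfc_O (fc_chart A0 ({x⁻¹} : Set F0)).toSubring (algebraMap A0 F0 π),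
          h - (b1 : F0) = algebraMap A0 F0 π ^ (e + 1) * y)
    (h4a : ∃ y ∈ sfc_O (fc_chart A0 ({x, x⁻¹} : Set F0)).toSubring (algebraMap A0 F0 π),
      f - 1 = algebraMap A0 F0 π ^ (p * e + 1) * y)
    (hH0 : ∀ z : F0, z ∈ fc_chart A0 ({x} : Set F0) → z ∈ fc_chart A0 ({x⁻¹} : Set F0) →
      z ∈ (algebraMap A0 F0).range) :
    ∃ (c : A0) (g : F0), g ≠ 0 ∧ f = algebraMap A0 F0 c * g ^ p := by
  classical
  set ϖ := algebraMap A0 F0 π with hϖ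
  set B1 := fc_chart A0 ({x} : Set F0) with hB1
  set B2 := fc_chart A0 ({x⁻¹} : Set F0) with hB2
  set B12 := fc_chart A0 ({x, x⁻¹} : Set F0) with hB12
  have hm0 : p ≠ 0 := hp.ne_zero
  have hle1 : B1 ≤ B12 := fc_chart1_le x
  have hle2 : B2 ≤ B12 := fc_chart2_le x
  have hxB1 : x ∈ B1 := fc_x_mem_chart x
  have hxB2 : x⁻¹ ∈ B2 := fc_x_mem_chart x⁻¹
  have hxinv12 : x⁻¹ ∈ B12 := hle2 hxB2
  have hx12 : x ∈ B12 := hle1 hxB1
  have hroot1 : ∀ z : F0, z ^ p ∈ B1 → z ∈ B1 := fun z => fc_chart_root hm0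
  have hroot2 : ∀ z : F0, z ^ p ∈ B2 → z ∈ B2 := fun z => fc_chart_root hm0
  have hroot12 : ∀ z : F0, z ^ p ∈ B12 → z ∈ B12 := fun z => fc_chart_root hm0
  have hclear1 : ∀ z ∈ B12, ∃ k : ℕ, x ^ k * z ∈ B1 := fun z hz => fc_clear1 hx hz
  have hclear2 : ∀ z ∈ B12, ∃ k : ℕ, x⁻¹ ^ k * z ∈ B2 := fun z hz => fc_clear2 hx hz
  have hxx : x⁻¹⁻¹ ∈ B12 := by rw [inv_inv]; exact hx12
  have hnu1 : ϖ⁻¹ ∉ B1 := fun h => hnu (hle1 h)
  have hnu2 : ϖ⁻¹ ∉ B2 := fun h => hnu (hle2 h)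
  have hϖ12 : ϖ ∈ B12 := B12.algebraMap_mem π
  -- the semilocal Gauss ring and its comparison with the charts
  set O : Subring F0 := sfc_O B12.toSubring ϖ with hO
  have hO1 : sfc_O B1.toSubring ϖ = O :=
    sfc_O_eq (R := B1.toSubring) (R' := B12.toSubring) hle1 hxS1 hxinv12 hclear1
  have hO2 : sfc_O B2.toSubring ϖ = O :=
    sfc_O_eq (R := B2.toSubring) (R' := B12.toSubring) hle2 hxS2 hxx hclear2
  have hBO : ∀ z ∈ B12, z ∈ O := fun z hz => sfc_le_O (R := B12.toSubring) hz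
  have hjac : ∀ y ∈ O, (1 + ϖ * y)⁻¹ ∈ O := fun y hy =>
    sfc_jac (R := B12.toSubring) hϖ12 hnu hy
  have hπO : ϖ⁻¹ ∉ O := sfc_pi_inv_not_mem (R := B12.toSubring) hnu
  have hrootO : ∀ z : F0, z ^ p ∈ O → z ∈ O := fun z hz =>
    sfc_root (R := B12.toSubring) hm0 hroot12 hz
  have hsat12 : ∀ y ∈ O, ϖ * y ∈ B12 → y ∈ B12 := fun y hy h =>
    sfc_sat (R := B12.toSubring) hnu hy h
  have hsat1 : ∀ y ∈ O, ϖ * y ∈ B1 → y ∈ B1 := fun y hy h =>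
    sfc_sat (R := B1.toSubring) hnu1 (hO1 ▸ hy) h
  have hsat2 : ∀ y ∈ O, ϖ * y ∈ B2 → y ∈ B2 := fun y hy h =>
    sfc_sat (R := B2.toSubring) hnu2 (hO2 ▸ hy) h
  have hOJ : sfn_Jac π O := ⟨hjac, hπO, hBO _ hϖ12⟩
  have hf0 : f ≠ 0 := by
    obtain ⟨y, hy, hfy⟩ := s44s_hf_shallow hOJ h4a
    have : f = 1 + ϖ * y := by rw [← hfy]; ring
    rw [this]
    exact hOJ.one_add_ne_zero hy
  -- STEP 1 on both charts
  have hs1 : ∃ h : F0, h ^ p * f ∈ B1 ∧ ∃ y ∈ O, h - 1 = ϖ ^ (e + 1) * y := by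
    obtain ⟨h, hh, y, hy, hh1⟩ := s44s_step1 B1 π p e hm0 f hroot1 hloc1
    rw [hO1] at hy
    exact ⟨h, hh, y, hy, hh1⟩
  have hs2 : ∃ h : F0, h ^ p * f ∈ B2 ∧ ∃ y ∈ O, h - 1 = ϖ ^ (e + 1) * y := by
    obtain ⟨h, hh, y, hy, hh1⟩ := s44s_step1 B2 π p e hm0 f hroot2 hloc2
    rw [hO2] at hy
    exact ⟨h, hh, y, hy, hh1⟩
  -- the torsion bound
  have hfrac : ∃ a b : F0, a ∈ B1 ∧ b ∈ B1 ∧ b ≠ 0 ∧ f * b = a := by
    obtain ⟨a, b, hb, hab⟩ := IsFractionRing.div_surjective (A := B1) f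
    have hb0 : (b : F0) ≠ 0 := by
      intro h0
      exact nonZeroDivisors.ne_zero hb (Subtype.ext h0)
    refine ⟨a, b, a.2, b.2, hb0, ?_⟩
    rw [← hab]
    exact div_mul_cancel₀ _ hb0
  have hbound := fc_chart_hbound π hx p hm0 f hf0 (Module.Finite.iff_fg.1 hfin1) hfrac
  -- Newton
  obtain ⟨h, hh0, hh1, hh2⟩ := s44s_newton π p e hp v μ hpv hvμ B1 B2 B12 hle1 hle2 O hBO hjac
    hπO hrootO hroot1 hroot2 hroot12 hsat1 hsat2 hsat12 f h4a hs1 hs2 hbound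
  obtain ⟨c, hc⟩ := hH0 _ hh1 hh2
  refine ⟨c, h⁻¹, inv_ne_zero hh0, ?_⟩
  rw [hc, inv_pow, mul_assoc, mul_comm f, ← mul_assoc, mul_inv_cancel₀ (pow_ne_zero p hh0), one_mul]

end Main

section Factor

universe v

variable {A0 : Type*} [CommRing A0] {F0 : Type v} [Field F0] [Algebra A0 F0]

/-- **Local STEP-1 output from a local factorisation, deep range.**  `𝔫` an ideal of the chart `B`,
`f = (1 + ϖ ^ (p e + 1) y) r ^ p` with `y ∈ B_𝔫` (`s y ∈ B`, `s ∉ 𝔫`) and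
`r ≡ 1 mod ϖ ^ (e + 1) O`. -/
theorem s44s_loc_of_factor (B : Subalgebra A0 F0) (π : A0)
    (hnu : (algebraMap A0 F0 π)⁻¹ ∉ B) (p e : ℕ) (hp0 : p ≠ 0) (f : F0) (𝔫 : Ideal B)
    {r y : F0} {s : B} (hs𝔫 : s ∉ 𝔫) (hsy : (s : F0) * y ∈ B)
    (hf : f = (1 + algebraMap A0 F0 π ^ (p * e + 1) * y) * r ^ p)
    (hr : ∃ y' ∈ sfc_O B.toSubring (algebraMap A0 F0 π),
      r - 1 = algebraMap A0 F0 π ^ (e + 1) * y') :
    ∃ (b1 : B) (h : F0), b1 ∉ 𝔫 ∧ h ^ p * f ∈ B ∧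
      ∃ y'' ∈ sfc_O B.toSubring (algebraMap A0 F0 π),
        h - (b1 : F0) = algebraMap A0 F0 π ^ (e + 1) * y'' := by
  set ϖ := algebraMap A0 F0 π with hϖ
  have hϖB : ϖ ∈ B := B.algebraMap_mem π
  have hϖO : ϖ ∈ sfc_O B.toSubring ϖ := sfc_le_O (R := B.toSubring) hϖB
  obtain ⟨y', hy', hry⟩ := hr
  have hr' : r = 1 + ϖ * (ϖ ^ e * y') := by
    have : r = 1 + ϖ ^ (e + 1) * y' := by rw [← hry]; ring
    rw [this, pow_succ]; ring
  have hy'' : ϖ ^ e * y' ∈ sfc_O B.toSubring ϖ := mul_mem (pow_mem hϖO e) hy'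
  have hrinv : r⁻¹ ∈ sfc_O B.toSubring ϖ := by
    rw [hr']; exact sfc_jac (R := B.toSubring) hϖB hnu hy''
  have hr0 : r ≠ 0 := by
    intro h0
    apply sfc_pi_inv_not_mem (R := B.toSubring) hnu
    have h1 : ϖ * (-(ϖ ^ e * y')) = 1 := by
      have : ϖ * (ϖ ^ e * y') = -1 := by
        have := hr'; rw [h0] at this; linear_combination -this
      rw [mul_neg, this, neg_neg]
    rw [inv_eq_of_mul_eq_one_right h1]
    exact neg_mem hy''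
  refine ⟨s, (s : F0) * r⁻¹, hs𝔫, ?_, -((s : F0) * r⁻¹ * y'), ?_, ?_⟩
  · obtain ⟨k, rfl⟩ := Nat.exists_eq_succ_of_ne_zero hp0
    have : ((s : F0) * r⁻¹) ^ (k + 1) * f =
        (s : F0) ^ (k + 1) + ϖ ^ ((k + 1) * e + 1) * ((s : F0) ^ k * ((s : F0) * y)) := by
      rw [hf, mul_pow, inv_pow]
      have hrk : r ^ (k + 1) ≠ 0 := pow_ne_zero _ hr0
      field_simp
      ring
    rw [this]
    exact B.add_mem (B.pow_mem s.2 _)
      (B.mul_mem (B.pow_mem hϖB _) (B.mul_mem (B.pow_mem s.2 _) hsy))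
  · exact neg_mem (mul_mem (mul_mem (sfc_le_O s.2) hrinv) hy')
  · have : (s : F0) * r⁻¹ - (s : F0) = ((s : F0) * r⁻¹ * (-1)) * (r - 1) := by
      field_simp
      ring
    rw [this, hry]
    ring

variable [IsDomain A0] [IsNoetherianRing A0]

/-- **Semistable F-core for the exponent `p`, deep range, local factorisation form**:
`f ≡ 1 mod π ^ (p e + 1) O`; at every closed point of the special fibre of either chart
`f = (1 + π ^ (p e + 1) y) r ^ p` with `y` in the local ring of the point and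
`r ≡ 1 mod π ^ (e + 1) O`.  Then `f = c g ^ p`. -/
theorem s44s_main_factor (π : A0) {x : F0} (hx : x ≠ 0) (p e : ℕ) (hp : p.Prime) (v μ : A0)
    (hpv : (p : A0) = π ^ ((p - 1) * e) * v) (hvμ : v * μ = 1) (f : F0)
    [Algebra.IsAlgebraic (Algebra.adjoin A0 ({x} : Set F0)) F0]
    (hfin1 : Module.Finite (Algebra.adjoin A0 ({x} : Set F0))
      (integralClosure (Algebra.adjoin A0 ({x} : Set F0)) F0))
    (hnu : (algebraMap A0 F0 π)⁻¹ ∉ fc_chart A0 ({x, x⁻¹} : Set F0))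
    (hxS1 : x ∈ sfc_S (fc_chart A0 ({x} : Set F0)).toSubring (algebraMap A0 F0 π))
    (hxS2 : x⁻¹ ∈ sfc_S (fc_chart A0 ({x⁻¹} : Set F0)).toSubring (algebraMap A0 F0 π))
    (hloc1 : ∀ 𝔫 : Ideal (fc_chart A0 ({x} : Set F0)), 𝔫.IsMaximal →
      algebraMap A0 (fc_chart A0 ({x} : Set F0)) π ∈ 𝔫 →
      ∃ (r y : F0) (s : fc_chart A0 ({x} : Set F0)), s ∉ 𝔫 ∧
        (s : F0) * y ∈ fc_chart A0 ({x} : Set F0) ∧
        f = (1 + algebraMap A0 F0 π ^ (p * e + 1) * y) * r ^ p ∧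
        ∃ y' ∈ sfc_O (fc_chart A0 ({x, x⁻¹} : Set F0)).toSubring (algebraMap A0 F0 π),
          r - 1 = algebraMap A0 F0 π ^ (e + 1) * y')
    (hloc2 : ∀ 𝔫 : Ideal (fc_chart A0 ({x⁻¹} : Set F0)), 𝔫.IsMaximal →
      algebraMap A0 (fc_chart A0 ({x⁻¹} : Set F0)) π ∈ 𝔫 →
      ∃ (r y : F0) (s : fc_chart A0 ({x⁻¹} : Set F0)), s ∉ 𝔫 ∧
        (s : F0) * y ∈ fc_chart A0 ({x⁻¹} : Set F0) ∧
        f = (1 + algebraMap A0 F0 π ^ (p * e + 1) * y) * r ^ p ∧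
        ∃ y' ∈ sfc_O (fc_chart A0 ({x, x⁻¹} : Set F0)).toSubring (algebraMap A0 F0 π),
          r - 1 = algebraMap A0 F0 π ^ (e + 1) * y')
    (h4a : ∃ y ∈ sfc_O (fc_chart A0 ({x, x⁻¹} : Set F0)).toSubring (algebraMap A0 F0 π),
      f - 1 = algebraMap A0 F0 π ^ (p * e + 1) * y)
    (hH0 : ∀ z : F0, z ∈ fc_chart A0 ({x} : Set F0) → z ∈ fc_chart A0 ({x⁻¹} : Set F0) →
      z ∈ (algebraMap A0 F0).range) :
    ∃ (c : A0) (g : F0), g ≠ 0 ∧ f = algebraMap A0 F0 c * g ^ p := by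
  have hm0 : p ≠ 0 := hp.ne_zero
  have hle1 : fc_chart A0 ({x} : Set F0) ≤ fc_chart A0 ({x, x⁻¹} : Set F0) := fc_chart1_le x
  have hle2 : fc_chart A0 ({x⁻¹} : Set F0) ≤ fc_chart A0 ({x, x⁻¹} : Set F0) := fc_chart2_le x
  have hx12 : x ∈ fc_chart A0 ({x, x⁻¹} : Set F0) := hle1 (fc_x_mem_chart x)
  have hxinv12 : x⁻¹ ∈ fc_chart A0 ({x, x⁻¹} : Set F0) := hle2 (fc_x_mem_chart x⁻¹)
  have hxx : x⁻¹⁻¹ ∈ fc_chart A0 ({x, x⁻¹} : Set F0) := by rw [inv_inv]; exact hx12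
  have hO1 := sfc_O_eq (R := (fc_chart A0 ({x} : Set F0)).toSubring)
    (R' := (fc_chart A0 ({x, x⁻¹} : Set F0)).toSubring) hle1 hxS1 hxinv12
    (fun z hz => fc_clear1 hx hz)
  have hO2 := sfc_O_eq (R := (fc_chart A0 ({x⁻¹} : Set F0)).toSubring)
    (R' := (fc_chart A0 ({x, x⁻¹} : Set F0)).toSubring) hle2 hxS2 hxx
    (fun z hz => fc_clear2 hx hz)
  refine s44s_main π hx p e hp v μ hpv hvμ f hfin1 hnu hxS1 hxS2 ?_ ?_ h4a hH0
  · intro 𝔫 h𝔫 hπ𝔫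
    obtain ⟨r, y, s, hs, hsy, hf, y', hy', hr⟩ := hloc1 𝔫 h𝔫 hπ𝔫
    rw [← hO1] at hy'
    exact s44s_loc_of_factor _ π (fun h => hnu (hle1 h)) p e hm0 f 𝔫 hs hsy hf ⟨y', hy', hr⟩
  · intro 𝔫 h𝔫 hπ𝔫
    obtain ⟨r, y, s, hs, hsy, hf, y', hy', hr⟩ := hloc2 𝔫 h𝔫 hπ𝔫
    rw [← hO2] at hy'
    exact s44s_loc_of_factor _ π (fun h => hnu (hle2 h)) p e hm0 f 𝔫 hs hsy hf ⟨y', hy', hr⟩

end Factor

end Fermat.Agent.S44
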