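/-
S44 (level lowering at `p`), cell [G] = [TOR], SUBs (S-ROOT) and (S-LOC) of [G3] (helper13).
Prefix `s44s_`.  Namespace `Fermat.Agent.S44`.  Mathlib + `SFCp/Main.lean`.

* `s44s_root_cong`      (S-ROOT): `V` a valuation subring, `ζ` a primitive `p`-th root of unity,
                        `lam = ζ - 1`: `d ^ p ≡ 1 mod lam ^ p V` ⟹ `d ≡ 1 mod lam V`.
* `s44s_loc_of_factor2` (S-LOC): the local STEP-1 output at a closed point `𝔫` of a chart `B` from a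
                        factorisation `f = (1 + ϖ ^ (p e + 1) y) r ^ p`, `y ∈ B_𝔫`, where for each of
                        the two component rings `V₁, V₂` (`V₁ ∩ V₂ ⊆ O`) there is a MULTIPLIER
                        `s_j ∈ B ∖ 𝔫` with `s_j (r⁻¹ - 1) ∈ ϖ ^ (e + 1) V_j`.
* `s44s_mult_of_cong`   : the multiplier `s_j = 1` at a component where `r ≡ 1 mod ϖ ^ (e + 1) V_j`
                        (component THROUGH `𝔫`);
* `s44s_mult_of_pole`   : the multiplier `s_j = s₀ ^ n` at a component NOT through `𝔫`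
                        (`s₀ ∈ B ∖ 𝔫`, `s₀ ∈ ϖ V_j`), whatever `r` is.
-/
import Mathlib
import Fermat.Agent.S44.SFCp.Main

set_option autoImplicit false
set_option linter.unusedSectionVars false

namespace Fermat.Agent.S44

open Fermat.Agent.JT3 Fermat.Agent.SS

section Root

variable {F0 : Type*} [Field F0]

/-- **(S-ROOT)** `d ^ p ≡ 1 mod lam ^ p` ⟹ `d ≡ 1 mod lam` (`lam = ζ - 1`). -/
theorem s44s_root_cong (V : ValuationSubring F0) {p : ℕ} (hp : p.Prime) {ζ : F0}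
    (hζ : IsPrimitiveRoot ζ p) {d : F0} (hd : ∃ H ∈ V, d ^ p - 1 = (ζ - 1) ^ p * H) :
    ∃ ε ∈ V, d - 1 = (ζ - 1) * ε := by
  classical
  set v := V.valuation with hv
  set lam := ζ - 1 with hlam
  have hp0 : 0 < p := hp.pos
  have hlam0 : lam ≠ 0 := by
    rw [hlam, sub_ne_zero]
    exact hζ.ne_one hp.one_lt
  have hvlam0 : v lam ≠ 0 := (Valuation.ne_zero_iff _).2 hlam0
  -- `v ζ = 1`
  have hvζ : v ζ = 1 := by
    have h1 : v ζ ^ p = 1 := by rw [← map_pow, hζ.pow_eq_one, map_one]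
    exact (pow_eq_one_iff_of_nonneg zero_le hp.ne_zero).1 h1
  -- `v (ζ ^ j - 1) ≤ v lam`
  have hvj : ∀ j : ℕ, v (ζ ^ j - 1) ≤ v lam := by
    intro j
    have h1 : ζ ^ j - 1 = lam * ∑ i ∈ Finset.range j, ζ ^ i := by
      rw [hlam, mul_comm, geom_sum_mul]
    rw [h1, map_mul]
    have h2 : v (∑ i ∈ Finset.range j, ζ ^ i) ≤ 1 := by
      apply Valuation.map_sum_le
      intro i _
      rw [map_pow, hvζ, one_pow]
    exact mul_le_of_le_one_right zero_le h2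
  -- the claim in valuation form
  suffices hmain : v (d - 1) ≤ v lam by
    refine ⟨(d - 1) / lam, ?_, by field_simp⟩
    rw [← V.valuation_le_one_iff, map_div₀]
    exact div_le_one_of_le₀ hmain zero_le
  by_contra hcon
  push Not at hcon
  -- all factors have the valuation of `d - 1`
  have hfac : ∀ j : ℕ, v (d - ζ ^ j) = v (d - 1) := by
    intro j
    have h1 : d - ζ ^ j = (d - 1) - (ζ ^ j - 1) := by ring
    rw [h1]
    exact Valuation.map_sub_eq_of_lt_left _ (lt_of_le_of_lt (hvj j) hcon)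
  have hprod : d ^ p - 1 = ∏ μ ∈ Polynomial.nthRootsFinset p (1 : F0), (d - μ) := by
    have h := congrArg (Polynomial.eval d) (Polynomial.X_pow_sub_one_eq_prod hp0 hζ)
    rw [Polynomial.eval_sub, Polynomial.eval_pow, Polynomial.eval_X, Polynomial.eval_one,
      Polynomial.eval_prod] at h
    rw [h]
    apply Finset.prod_congr rfl
    intro μ _
    rw [Polynomial.eval_sub, Polynomial.eval_X, Polynomial.eval_C]
  have hvprod : v (d ^ p - 1) = v (d - 1) ^ p := by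
    rw [hprod, map_prod]
    have h1 : ∀ μ ∈ Polynomial.nthRootsFinset p (1 : F0), v (d - μ) = v (d - 1) := by
      intro μ hμ
      rw [Polynomial.mem_nthRootsFinset hp0] at hμ
      have : NeZero p := ⟨hp.ne_zero⟩
      obtain ⟨j, _, hj⟩ := hζ.eq_pow_of_pow_eq_one hμ
      rw [← hj]
      exact hfac j
    rw [Finset.prod_congr rfl h1, Finset.prod_const, hζ.card_nthRootsFinset]
  obtain ⟨H, hH, hdH⟩ := hd
  have hle : v (d ^ p - 1) ≤ v lam ^ p := by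
    rw [hdH, map_mul, map_pow]
    exact mul_le_of_le_one_right zero_le ((V.valuation_le_one_iff H).2 hH)
  rw [hvprod] at hle
  have hlt : v lam ^ p < v (d - 1) ^ p := pow_lt_pow_left₀ hcon zero_le hp.ne_zero
  exact absurd hle (not_le.2 hlt)

end Root

section Loc2

variable {A0 : Type*} [CommRing A0] {F0 : Type*} [Field F0] [Algebra A0 F0]

/-- A unit `1 + ϖ ^ (e + 1) y` of a valuation ring (`v ϖ < 1`, `y ∈ V`) has its inverse in `V`. -/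
theorem s44s_inv_mem_of_cong (V : ValuationSubring F0) {ϖ : F0} (hϖ : V.valuation ϖ < 1)
    (e : ℕ) {r : F0} (hr : ∃ y' ∈ V, r - 1 = ϖ ^ (e + 1) * y') : r ≠ 0 ∧ r⁻¹ ∈ V := by
  obtain ⟨y', hy', hry⟩ := hr
  have h1 : V.valuation (r - 1) < 1 := by
    rw [hry, map_mul, map_pow]
    have h2 : V.valuation ϖ ^ (e + 1) < 1 := pow_lt_one₀ zero_le hϖ (Nat.succ_ne_zero e)
    exact lt_of_le_of_lt (mul_le_of_le_one_right zero_le ((V.valuation_le_one_iff y').2 hy')) h2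
  have h3 : V.valuation r = 1 := by
    have h4 : r = 1 + (r - 1) := by ring
    rw [h4]
    have h5 : V.valuation (1 + (r - 1)) = V.valuation (1 : F0) := by
      apply Valuation.map_add_eq_of_lt_left
      rwa [map_one]
    rw [h5, map_one]
  have hr0 : r ≠ 0 := by
    intro h0
    rw [h0, map_zero] at h3
    exact zero_ne_one h3
  refine ⟨hr0, ?_⟩
  rw [← V.valuation_le_one_iff, map_inv₀, h3, inv_one]

/-- **The multiplier at a component THROUGH `𝔫`**: `r ≡ 1 mod ϖ ^ (e + 1) V`, `r⁻¹ ∈ V` ⟹ `s = 1`. -/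
theorem s44s_mult_of_cong (B : Subalgebra A0 F0) (π : A0) (e : ℕ) (𝔫 : Ideal B)
    (h𝔫 : 𝔫.IsPrime) (V : Subring F0) {r : F0} (hr0 : r ≠ 0) (hrV : r⁻¹ ∈ V)
    (hr : ∃ y' ∈ V, r - 1 = algebraMap A0 F0 π ^ (e + 1) * y') :
    ∃ s₁ : B, s₁ ∉ 𝔫 ∧ ∃ y₁ ∈ V,
      (s₁ : F0) * (r⁻¹ - 1) = algebraMap A0 F0 π ^ (e + 1) * y₁ := by
  obtain ⟨y', hy', hry⟩ := hr
  refine ⟨1, fun h => h𝔫.ne_top ((Ideal.eq_top_iff_one 𝔫).2 h), -(r⁻¹ * y'),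
    neg_mem (mul_mem hrV hy'), ?_⟩
  have h1 : r⁻¹ - 1 = -(r⁻¹ * (r - 1)) := by
    field_simp
    ring
  rw [OneMemClass.coe_one, one_mul, h1, hry]
  ring

/-- **The multiplier at a component NOT through `𝔫`**: `s₀ ∈ B ∖ 𝔫`, `s₀ ∈ ϖ V`, `r⁻¹` of bounded
pole order along the component ⟹ `s = s₀ ^ (a + e + 1)`. -/
theorem s44s_mult_of_pole (B : Subalgebra A0 F0) (π : A0) (e : ℕ) (𝔫 : Ideal B)
    (h𝔫 : 𝔫.IsPrime) (V : Subring F0) (hϖV : algebraMap A0 F0 π ∈ V) {r : F0} {s₀ : B}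
    (hs₀ : s₀ ∉ 𝔫) (hs₀V : ∃ c₀ ∈ V, (s₀ : F0) = algebraMap A0 F0 π * c₀)
    (hpole : ∃ a : ℕ, algebraMap A0 F0 π ^ a * r⁻¹ ∈ V) :
    ∃ s₁ : B, s₁ ∉ 𝔫 ∧ ∃ y₁ ∈ V,
      (s₁ : F0) * (r⁻¹ - 1) = algebraMap A0 F0 π ^ (e + 1) * y₁ := by
  obtain ⟨c₀, hc₀, hsc⟩ := hs₀V
  obtain ⟨a, ha⟩ := hpole
  set ϖ := algebraMap A0 F0 π with hϖ
  refine ⟨s₀ ^ (a + e + 1), fun h => hs₀ (h𝔫.mem_of_pow_mem _ h),
    c₀ ^ (a + e + 1) * (ϖ ^ a * r⁻¹ - ϖ ^ a), mul_mem (pow_mem hc₀ _)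
      (sub_mem ha (pow_mem hϖV _)), ?_⟩
  rw [SubmonoidClass.coe_pow, hsc]
  ring

/-- **(S-LOC)** The local STEP-1 output of `s44s_main` at a closed point `𝔫` of the chart `B` from a
factorisation `f = (1 + ϖ ^ (p e + 1) y) r ^ p`, `y ∈ B_𝔫`, and one multiplier for each of the two
component rings `V₁, V₂` (`V₁ ∩ V₂ ⊆ O`). -/
theorem s44s_loc_of_factor2 (B : Subalgebra A0 F0) (π : A0) (p e : ℕ) (hp0 : p ≠ 0) (f : F0)
    (𝔫 : Ideal B) (h𝔫 : 𝔫.IsPrime) (V₁ V₂ : Subring F0)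
    (hBV₁ : ∀ z ∈ B, z ∈ V₁) (hBV₂ : ∀ z ∈ B, z ∈ V₂)
    (hO : ∀ y : F0, y ∈ V₁ → y ∈ V₂ → y ∈ sfc_O B.toSubring (algebraMap A0 F0 π))
    {r y : F0} (hr0 : r ≠ 0) {s : B} (hs𝔫 : s ∉ 𝔫) (hsy : (s : F0) * y ∈ B)
    (hf : f = (1 + algebraMap A0 F0 π ^ (p * e + 1) * y) * r ^ p)
    (hm₁ : ∃ s₁ : B, s₁ ∉ 𝔫 ∧ ∃ y₁ ∈ V₁,
      (s₁ : F0) * (r⁻¹ - 1) = algebraMap A0 F0 π ^ (e + 1) * y₁)
    (hm₂ : ∃ s₂ : B, s₂ ∉ 𝔫 ∧ ∃ y₂ ∈ V₂,
      (s₂ : F0) * (r⁻¹ - 1) = algebraMap A0 F0 π ^ (e + 1) * y₂) :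
    ∃ (b1 : B) (h : F0), b1 ∉ 𝔫 ∧ h ^ p * f ∈ B ∧
      ∃ y'' ∈ sfc_O B.toSubring (algebraMap A0 F0 π),
        h - (b1 : F0) = algebraMap A0 F0 π ^ (e + 1) * y'' := by
  set ϖ := algebraMap A0 F0 π with hϖ
  have hϖB : ϖ ∈ B := B.algebraMap_mem π
  obtain ⟨s₁, hs₁, y₁, hy₁, h1⟩ := hm₁
  obtain ⟨s₂, hs₂, y₂, hy₂, h2⟩ := hm₂
  have hb1 : s * s₁ * s₂ ∉ 𝔫 := by
    intro h
    rcases h𝔫.mem_or_mem h with h | h
    · rcases h𝔫.mem_or_mem h with h | h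
      · exact hs𝔫 h
      · exact hs₁ h
    · exact hs₂ h
  refine ⟨s * s₁ * s₂, ((s * s₁ * s₂ : B) : F0) * r⁻¹, hb1, ?_, ?_⟩
  · obtain ⟨k, rfl⟩ := Nat.exists_eq_succ_of_ne_zero hp0
    have : (((s * s₁ * s₂ : B) : F0) * r⁻¹) ^ (k + 1) * f =
        ((s * s₁ * s₂ : B) : F0) ^ (k + 1) + ϖ ^ ((k + 1) * e + 1) *
          (((s * s₁ * s₂ : B) : F0) ^ k * ((s₁ : F0) * (s₂ : F0) * ((s : F0) * y))) := by
      rw [hf, mul_pow, inv_pow]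
      have hrk : r ^ (k + 1) ≠ 0 := pow_ne_zero _ hr0
      push_cast
      field_simp
      ring
    rw [this]
    exact B.add_mem (B.pow_mem (s * s₁ * s₂).2 _)
      (B.mul_mem (B.pow_mem hϖB _) (B.mul_mem (B.pow_mem (s * s₁ * s₂).2 _)
        (B.mul_mem (B.mul_mem s₁.2 s₂.2) hsy)))
  · have hdiff : ((s * s₁ * s₂ : B) : F0) * r⁻¹ - ((s * s₁ * s₂ : B) : F0) =
        (s : F0) * (s₁ : F0) * (s₂ : F0) * (r⁻¹ - 1) := by
      push_cast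
      ring
    by_cases hϖ0 : ϖ = 0
    · refine ⟨0, zero_mem _, ?_⟩
      rw [hdiff, mul_zero]
      have : (s₁ : F0) * (r⁻¹ - 1) = 0 := by
        rw [h1, hϖ0, zero_pow (Nat.succ_ne_zero e), zero_mul]
      rw [mul_assoc (s : F0), mul_comm (s₁ : F0), mul_assoc, mul_assoc, this, mul_zero, mul_zero]
    · have hy12 : (s : F0) * (s₂ : F0) * y₁ = (s : F0) * (s₁ : F0) * y₂ := by
        have h3 : ϖ ^ (e + 1) * ((s : F0) * (s₂ : F0) * y₁) =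
            ϖ ^ (e + 1) * ((s : F0) * (s₁ : F0) * y₂) := by
          calc ϖ ^ (e + 1) * ((s : F0) * (s₂ : F0) * y₁)
              = (s : F0) * (s₂ : F0) * (ϖ ^ (e + 1) * y₁) := by ring
            _ = (s : F0) * (s₂ : F0) * ((s₁ : F0) * (r⁻¹ - 1)) := by rw [h1]
            _ = (s : F0) * (s₁ : F0) * ((s₂ : F0) * (r⁻¹ - 1)) := by ring
            _ = (s : F0) * (s₁ : F0) * (ϖ ^ (e + 1) * y₂) := by rw [h2]
            _ = ϖ ^ (e + 1) * ((s : F0) * (s₁ : F0) * y₂) := by ring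
        exact mul_left_cancel₀ (pow_ne_zero _ hϖ0) h3
      refine ⟨(s : F0) * (s₂ : F0) * y₁, hO _ ?_ ?_, ?_⟩
      · exact mul_mem (mul_mem (hBV₁ _ s.2) (hBV₁ _ s₂.2)) hy₁
      · rw [hy12]
        exact mul_mem (mul_mem (hBV₂ _ s.2) (hBV₂ _ s₁.2)) hy₂
      · rw [hdiff]
        calc (s : F0) * (s₁ : F0) * (s₂ : F0) * (r⁻¹ - 1)
            = (s : F0) * (s₂ : F0) * ((s₁ : F0) * (r⁻¹ - 1)) := by ring
          _ = (s : F0) * (s₂ : F0) * (ϖ ^ (e + 1) * y₁) := by rw [h1]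
          _ = ϖ ^ (e + 1) * ((s : F0) * (s₂ : F0) * y₁) := by ring

end Loc2

section Factor2

universe v

variable {A0 : Type*} [CommRing A0] [IsDomain A0] [IsNoetherianRing A0]
  {F0 : Type v} [Field F0] [Algebra A0 F0]

/-- **Semistable F-core for the exponent `p`, deep range, MULTIPLIER form of the local hypotheses.**
`V₁, V₂` the two component rings (`B₁₂ ⊆ V_j`, `V₁ ∩ V₂ ⊆ O`); `f ≡ 1 mod π ^ (p e + 1) O`; at every
closed point `𝔫` of the special fibre of either chart `B`: `f = (1 + π ^ (p e + 1) y) r ^ p`,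
`y ∈ B_𝔫`, `r ≠ 0`, and for each `j` a multiplier `s_j ∈ B ∖ 𝔫` with
`s_j (r⁻¹ - 1) ∈ π ^ (e + 1) V_j` (`s44s_mult_of_cong` / `s44s_mult_of_pole`).
Then `f = c g ^ p`. -/
theorem s44s_main_factor2 (π : A0) {x : F0} (hx : x ≠ 0) (p e : ℕ) (hp : p.Prime) (v μ : A0)
    (hpv : (p : A0) = π ^ ((p - 1) * e) * v) (hvμ : v * μ = 1) (f : F0)
    [Algebra.IsAlgebraic (Algebra.adjoin A0 ({x} : Set F0)) F0]
    (hfin1 : Module.Finite (Algebra.adjoin A0 ({x} : Set F0))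
      (integralClosure (Algebra.adjoin A0 ({x} : Set F0)) F0))
    (hnu : (algebraMap A0 F0 π)⁻¹ ∉ fc_chart A0 ({x, x⁻¹} : Set F0))
    (hxS1 : x ∈ sfc_S (fc_chart A0 ({x} : Set F0)).toSubring (algebraMap A0 F0 π))
    (hxS2 : x⁻¹ ∈ sfc_S (fc_chart A0 ({x⁻¹} : Set F0)).toSubring (algebraMap A0 F0 π))
    (V₁ V₂ : Subring F0)
    (hBV₁ : ∀ z ∈ fc_chart A0 ({x, x⁻¹} : Set F0), z ∈ V₁)
    (hBV₂ : ∀ z ∈ fc_chart A0 ({x, x⁻¹} : Set F0), z ∈ V₂)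
    (hO : ∀ y : F0, y ∈ V₁ → y ∈ V₂ →
      y ∈ sfc_O (fc_chart A0 ({x, x⁻¹} : Set F0)).toSubring (algebraMap A0 F0 π))
    (hloc1 : ∀ 𝔫 : Ideal (fc_chart A0 ({x} : Set F0)), 𝔫.IsMaximal →
      algebraMap A0 (fc_chart A0 ({x} : Set F0)) π ∈ 𝔫 →
      ∃ (r y : F0) (s : fc_chart A0 ({x} : Set F0)), s ∉ 𝔫 ∧
        (s : F0) * y ∈ fc_chart A0 ({x} : Set F0) ∧ r ≠ 0 ∧
        f = (1 + algebraMap A0 F0 π ^ (p * e + 1) * y) * r ^ p ∧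
        (∃ s₁ : fc_chart A0 ({x} : Set F0), s₁ ∉ 𝔫 ∧ ∃ y₁ ∈ V₁,
          (s₁ : F0) * (r⁻¹ - 1) = algebraMap A0 F0 π ^ (e + 1) * y₁) ∧
        (∃ s₂ : fc_chart A0 ({x} : Set F0), s₂ ∉ 𝔫 ∧ ∃ y₂ ∈ V₂,
          (s₂ : F0) * (r⁻¹ - 1) = algebraMap A0 F0 π ^ (e + 1) * y₂))
    (hloc2 : ∀ 𝔫 : Ideal (fc_chart A0 ({x⁻¹} : Set F0)), 𝔫.IsMaximal →
      algebraMap A0 (fc_chart A0 ({x⁻¹} : Set F0)) π ∈ 𝔫 →
      ∃ (r y : F0) (s : fc_chart A0 ({x⁻¹} : Set F0)), s ∉ 𝔫 ∧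
        (s : F0) * y ∈ fc_chart A0 ({x⁻¹} : Set F0) ∧ r ≠ 0 ∧
        f = (1 + algebraMap A0 F0 π ^ (p * e + 1) * y) * r ^ p ∧
        (∃ s₁ : fc_chart A0 ({x⁻¹} : Set F0), s₁ ∉ 𝔫 ∧ ∃ y₁ ∈ V₁,
          (s₁ : F0) * (r⁻¹ - 1) = algebraMap A0 F0 π ^ (e + 1) * y₁) ∧
        (∃ s₂ : fc_chart A0 ({x⁻¹} : Set F0), s₂ ∉ 𝔫 ∧ ∃ y₂ ∈ V₂,
          (s₂ : F0) * (r⁻¹ - 1) = algebraMap A0 F0 π ^ (e + 1) * y₂))
    (h4a : ∃ y ∈ sfc_O (fc_chart A0 ({x, x⁻¹} : Set F0)).toSubring (algebraMap A0 F0 π),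
      f - 1 = algebraMap A0 F0 π ^ (p * e + 1) * y)
    (hH0 : ∀ z : F0, z ∈ fc_chart A0 ({x} : Set F0) → z ∈ fc_chart A0 ({x⁻¹} : Set F0) →
      z ∈ (algebraMap A0 F0).range) :
    ∃ (c : A0) (g : F0), g ≠ 0 ∧ f = algebraMap A0 F0 c * g ^ p := by
  have hm0 : p ≠ 0 := hp.ne_zero
  have hle1 : fc_chart A0 ({x} : Set F0) ≤ fc_chart A0 ({x, x⁻¹} : Set F0) := fc_chart1_le x
  have hle2 : fc_chart A0 ({x⁻¹} : Set F0) ≤ fc_chart A0 ({x, x⁻¹} : Set F0) := fc_chart2_le x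
  have hx12 : x ∈ fc_chart A0 ({x, x⁻¹} : Set F0) := hle1 (fc_x_mem_chart x)
  have hxinv12 : x⁻¹ ∈ fc_chart A0 ({x, x⁻¹} : Set F0) := hle2 (fc_x_mem_chart x⁻¹)
  have hxx : x⁻¹⁻¹ ∈ fc_chart A0 ({x, x⁻¹} : Set F0) := by rw [inv_inv]; exact hx12
  have hO1 := sfc_O_eq (R := (fc_chart A0 ({x} : Set F0)).toSubring)
    (R' := (fc_chart A0 ({x, x⁻¹} : Set F0)).toSubring) hle1 hxS1 hxinv12
    (fun z hz => fc_clear1 hx hz)
  have hO2 := sfc_O_eq (R := (fc_chart A0 ({x⁻¹} : Set F0)).toSubring)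
    (R' := (fc_chart A0 ({x, x⁻¹} : Set F0)).toSubring) hle2 hxS2 hxx
    (fun z hz => fc_clear2 hx hz)
  refine s44s_main π hx p e hp v μ hpv hvμ f hfin1 hnu hxS1 hxS2 ?_ ?_ h4a hH0
  · intro 𝔫 h𝔫 hπ𝔫
    obtain ⟨r, y, s, hs, hsy, hr0, hf, hm₁, hm₂⟩ := hloc1 𝔫 h𝔫 hπ𝔫
    exact s44s_loc_of_factor2 _ π p e hm0 f 𝔫 h𝔫.isPrime V₁ V₂
      (fun z hz => hBV₁ z (hle1 hz)) (fun z hz => hBV₂ z (hle1 hz))
      (fun y h1 h2 => by rw [hO1]; exact hO y h1 h2) hr0 hs hsy hf hm₁ hm₂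
  · intro 𝔫 h𝔫 hπ𝔫
    obtain ⟨r, y, s, hs, hsy, hr0, hf, hm₁, hm₂⟩ := hloc2 𝔫 h𝔫 hπ𝔫
    exact s44s_loc_of_factor2 _ π p e hm0 f 𝔫 h𝔫.isPrime V₁ V₂
      (fun z hz => hBV₁ z (hle2 hz)) (fun z hz => hBV₂ z (hle2 hz))
      (fun y h1 h2 => by rw [hO2]; exact hO y h1 h2) hr0 hs hsy hf hm₁ hm₂

end Factor2

end Fermat.Agent.S44
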