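/-
S44 (level lowering at `p`), cell [G] = [TOR], SUB (S-SIG) of [G3] (helper13).  Prefix `s44s_`.
Namespace `Fermat.Agent.S44`.  Mathlib only.

THE `σ`-BOOKKEEPING.  `R ⊆ F0` a subring, `ϖ, lam ∈ R` with `ϖ ∣ lam` in `R` and `1 + ϖ R ⊆ Rˣ`;
`τ` a ring endomorphism of `F0` which is trivial modulo `ϖ` on `R` and satisfies
`τ lam = (1 + lam) ^ k - 1` (i.e. `τ ζ = ζ ^ k` for `lam = ζ - 1`); `p ∈ lam R`.  Then

* `s44s_sig_gen`  : `τ Λ = Λ (k + lam c)`, `Λ ∈ lam R` ⟹ `τ (1 + Λ x) = (1 + Λ x) ^ k (1 + Λ ϖ y)`;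
* `s44s_sig_lam`  : `τ (1 + lam ε) = (1 + lam ε) ^ k (1 + lam ϖ y)`;
* `s44s_sig_lamp` : `τ (1 + lam ^ p H) = (1 + lam ^ p H) ^ k (1 + lam ^ p ϖ y)`;

so for `f = d ^ p (1 + lam ^ p H)`, `d = 1 + lam ε`, the function `h := τ f / f ^ k` has the local
factorisation `h = r ^ p (1 + lam ^ p ϖ y)` with `r = τ d / d ^ k ≡ 1 mod lam ϖ`
(`s44s_sig_factor`): no root-of-unity ambiguity survives.
-/
import Mathlib

set_option autoImplicit false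

namespace Fermat.Agent.S44

section Sigma

variable {F0 : Type*} [Field F0]

/-- `(1 + x) ^ k = 1 + k x + x² s` with `s` in any subring containing `x`. -/
theorem s44s_one_add_pow_two (S : Subring F0) {x : F0} (hx : x ∈ S) (k : ℕ) :
    ∃ s ∈ S, (1 + x) ^ k = 1 + (k : F0) * x + x ^ 2 * s := by
  induction k with
  | zero => exact ⟨0, S.zero_mem, by simp⟩
  | succ k ih =>
    obtain ⟨s, hs, h⟩ := ih
    refine ⟨s + (k : F0) + x * s, ?_, ?_⟩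
    · exact S.add_mem (S.add_mem hs (natCast_mem S k)) (S.mul_mem hx hs)
    · rw [pow_succ, h]
      push_cast
      ring

/-- `(a + x) ^ n = a ^ n + x t` with `t` in any subring containing `a`, `x`. -/
theorem s44s_add_pow_head (S : Subring F0) {a x : F0} (ha : a ∈ S) (hx : x ∈ S) (n : ℕ) :
    ∃ t ∈ S, (a + x) ^ n = a ^ n + x * t := by
  induction n with
  | zero => exact ⟨0, S.zero_mem, by simp⟩
  | succ n ih =>
    obtain ⟨t, ht, h⟩ := ih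
    refine ⟨a ^ n + t * (a + x), ?_, ?_⟩
    · exact S.add_mem (S.pow_mem ha n) (S.mul_mem ht (S.add_mem ha hx))
    · rw [pow_succ, h, pow_succ]
      ring

/-- Fermat's little theorem in a ring: `(k : F0) ^ p = k + p m`. -/
theorem s44s_natCast_pow_prime {p : ℕ} (hp : p.Prime) (k : ℕ) :
    ∃ m : ℤ, ((k : F0)) ^ p = (k : F0) + (p : F0) * (m : F0) := by
  have : Fact p.Prime := ⟨hp⟩
  have h1 : ((k : ℤ) ^ p - k : ℤ) ≡ 0 [ZMOD (p : ℤ)] := by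
    rw [Int.ModEq, ← ZMod.intCast_eq_intCast_iff']
    push_cast
    rw [ZMod.pow_card]
    simp
  obtain ⟨m, hm⟩ := (Int.modEq_zero_iff_dvd.1 h1)
  refine ⟨m, ?_⟩
  have h2 : (((k : ℤ) ^ p - k : ℤ) : F0) = (((p : ℤ) * m : ℤ) : F0) := by rw [hm]
  push_cast at h2
  linear_combination h2

variable (R : Subring F0) {ϖ lam : F0} (τ : F0 →+* F0) (k : ℕ)

/-- **general step**: `τ Λ = Λ (k + lam c)`, `Λ = lam Λ'` ⟹
`τ (1 + Λ x) = (1 + Λ x) ^ k (1 + Λ ϖ y)`. -/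
theorem s44s_sig_gen (hϖ : ϖ ∈ R) {l' : F0} (hl' : l' ∈ R) (hlam : lam = ϖ * l')
    (hjac : ∀ y ∈ R, (1 + ϖ * y)⁻¹ ∈ R ∧ 1 + ϖ * y ≠ 0)
    (hτ : ∀ z ∈ R, ∃ c ∈ R, τ z - z = ϖ * c)
    {Λ Λ' c : F0} (hΛ' : Λ' ∈ R) (hΛ : Λ = lam * Λ') (hc : c ∈ R)
    (hτΛ : τ Λ = Λ * ((k : F0) + lam * c)) {x : F0} (hx : x ∈ R) :
    ∃ y ∈ R, τ (1 + Λ * x) = (1 + Λ * x) ^ k * (1 + Λ * ϖ * y) := by
  have hlamR : lam ∈ R := by rw [hlam]; exact R.mul_mem hϖ hl'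
  have hΛR : Λ ∈ R := by rw [hΛ]; exact R.mul_mem hlamR hΛ'
  obtain ⟨x', hx', hτx⟩ := hτ x hx
  have hτx' : τ x = x + ϖ * x' := by rw [← hτx]; ring
  obtain ⟨s, hs, hexp⟩ := s44s_one_add_pow_two R (R.mul_mem hΛR hx) k
  -- the denominator
  set D := (1 + Λ * x) ^ k with hD
  have hD1 : (1 + Λ * x) = 1 + ϖ * (l' * Λ' * x) := by rw [hΛ, hlam]; ring
  have hw0 : l' * Λ' * x ∈ R := R.mul_mem (R.mul_mem hl' hΛ') hx
  have hbase_inv : (1 + Λ * x)⁻¹ ∈ R := by rw [hD1]; exact (hjac _ hw0).1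
  have hbase0 : 1 + Λ * x ≠ 0 := by rw [hD1]; exact (hjac _ hw0).2
  have hD0 : D ≠ 0 := pow_ne_zero _ hbase0
  have hDinv : D⁻¹ ∈ R := by rw [hD, ← inv_pow]; exact R.pow_mem hbase_inv k
  set w := (k : F0) * x' + l' * c * (x + ϖ * x') - l' * Λ' * x ^ 2 * s with hw
  have hwR : w ∈ R :=
    R.sub_mem (R.add_mem (R.mul_mem (natCast_mem R k) hx')
      (R.mul_mem (R.mul_mem hl' hc) (R.add_mem hx (R.mul_mem hϖ hx'))))
      (R.mul_mem (R.mul_mem (R.mul_mem hl' hΛ') (R.pow_mem hx 2)) hs)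
  refine ⟨w * D⁻¹, R.mul_mem hwR hDinv, ?_⟩
  have hdiff : τ (1 + Λ * x) - D = Λ * ϖ * w := by
    rw [map_add, map_one, map_mul, hτΛ, hτx', hexp, hw]
    have e2 : (Λ * x) ^ 2 = Λ * ϖ * (l' * Λ' * x ^ 2) := by
      have : (Λ * x) ^ 2 = Λ * (lam * Λ') * x ^ 2 := by rw [← hΛ]; ring
      rw [this, hlam]; ring
    rw [e2, hlam]
    ring
  have : τ (1 + Λ * x) = D + Λ * ϖ * w := by rw [← hdiff]; ring
  rw [this]
  field_simp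

/-- the hypothesis `τ lam = (1 + lam) ^ k - 1` in the shape `lam (k + lam c)` -/
theorem s44s_sig_lam_shape {lam : F0} (hlamR : lam ∈ R)
    (hτlam : τ lam = (1 + lam) ^ k - 1) : ∃ c ∈ R, τ lam = lam * ((k : F0) + lam * c) := by
  obtain ⟨s, hs, hexp⟩ := s44s_one_add_pow_two R hlamR k
  exact ⟨s, hs, by rw [hτlam, hexp]; ring⟩

/-- **(a)** `τ (1 + lam ε) = (1 + lam ε) ^ k (1 + lam ϖ y)`. -/
theorem s44s_sig_lam (hϖ : ϖ ∈ R) {l' : F0} (hl' : l' ∈ R) (hlam : lam = ϖ * l')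
    (hjac : ∀ y ∈ R, (1 + ϖ * y)⁻¹ ∈ R ∧ 1 + ϖ * y ≠ 0)
    (hτ : ∀ z ∈ R, ∃ c ∈ R, τ z - z = ϖ * c)
    (hτlam : τ lam = (1 + lam) ^ k - 1) {ε : F0} (hε : ε ∈ R) :
    ∃ y ∈ R, τ (1 + lam * ε) = (1 + lam * ε) ^ k * (1 + lam * ϖ * y) := by
  have hlamR : lam ∈ R := by rw [hlam]; exact R.mul_mem hϖ hl'
  obtain ⟨c, hc, hshape⟩ := s44s_sig_lam_shape R τ k hlamR hτlam
  exact s44s_sig_gen R τ k hϖ hl' hlam hjac hτ R.one_mem (mul_one lam).symm hc hshape hε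

/-- **(b)** `τ (1 + lam ^ p H) = (1 + lam ^ p H) ^ k (1 + lam ^ p ϖ y)`. -/
theorem s44s_sig_lamp (hϖ : ϖ ∈ R) {l' : F0} (hl' : l' ∈ R) (hlam : lam = ϖ * l')
    (hjac : ∀ y ∈ R, (1 + ϖ * y)⁻¹ ∈ R ∧ 1 + ϖ * y ≠ 0)
    (hτ : ∀ z ∈ R, ∃ c ∈ R, τ z - z = ϖ * c)
    (hτlam : τ lam = (1 + lam) ^ k - 1) {p : ℕ} (hp : p.Prime) {u : F0} (hu : u ∈ R)
    (hpu : (p : F0) = lam * u) {H : F0} (hH : H ∈ R) :
    ∃ y ∈ R, τ (1 + lam ^ p * H) = (1 + lam ^ p * H) ^ k * (1 + lam ^ p * ϖ * y) := by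
  have hlamR : lam ∈ R := by rw [hlam]; exact R.mul_mem hϖ hl'
  obtain ⟨c, hc, hshape⟩ := s44s_sig_lam_shape R τ k hlamR hτlam
  -- `(k + lam c) ^ p = k + lam c₃`
  obtain ⟨t, ht, hhead⟩ := s44s_add_pow_head R (natCast_mem R k) (R.mul_mem hlamR hc) p
  obtain ⟨m, hm⟩ := s44s_natCast_pow_prime (F0 := F0) hp k
  have hc3 : ((k : F0) + lam * c) ^ p = (k : F0) + lam * (u * (m : F0) + c * t) := by
    rw [hhead, hm, hpu]; ring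
  have hc3R : u * (m : F0) + c * t ∈ R :=
    R.add_mem (R.mul_mem hu (intCast_mem R m)) (R.mul_mem hc ht)
  have hτΛ : τ (lam ^ p) = lam ^ p * ((k : F0) + lam * (u * (m : F0) + c * t)) := by
    rw [map_pow, hshape, mul_pow, hc3]
  have hΛ : lam ^ p = lam * lam ^ (p - 1) := by
    rw [← pow_succ']
    congr 1
    have := hp.one_le
    omega
  exact s44s_sig_gen R τ k hϖ hl' hlam hjac hτ (R.pow_mem hlamR _) hΛ hc3R hτΛ hH

end Sigma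

end Fermat.Agent.S44
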